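/-
Row 37 (S43), block GLUE, LAYER 3 (chief helper48).  THE MOD `q` CYCLOTOMIC CHARACTER AND THE ATKIN-LEHNER DATA.

* `cyc q σ : (ZMod q)ˣ` with `actsBy_cyc : Ops.W.ActsBy σ (cyc q σ)` (`σ ζ_q = ζ_q ^ cyc σ`), `q` prime;
* `wDat hq hc : Triv.WDat q M`  (`w = Ops.w hc`, twist `e σ = (cyc q σ)⁻¹`);
* `w0Dat hq hc : Triv.W0Dat (wDat hq hc)` (`w0 = Ops.w0 hc`).
-/
import Fermat.Agent.S43.Ops.W.Twist
import Fermat.Agent.S43.Triv.Contract

set_option autoImplicit false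

noncomputable section

namespace Fermat.Agent.S43.Inst

open ModularCurve AlgebraicCurve
open Fermat.Agent.S24 Fermat.Agent.S24.B Fermat.Agent.S48.BB Fermat.Agent.S48.BB.E
open Fermat.Agent.GAL.E (GQ)

theorem exists_actsBy {q : ℕ} [NeZero q] (hq : q.Prime) (σ : GQ) :
    ∃ e : (ZMod q)ˣ, Ops.W.ActsBy σ e := by
  have hζ : IsPrimitiveRoot ((zetaK q : Kbarˣ) : Kbar) q :=
    IsPrimitiveRoot.coe_units_iff.2 (isPrimitiveRoot_zetaK q)
  have hσζ : IsPrimitiveRoot (σ ((zetaK q : Kbarˣ) : Kbar)) q :=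
    hζ.map_of_injective (f := (σ : Kbar →+* Kbar)) σ.injective
  obtain ⟨i, hi, hi'⟩ := hζ.eq_pow_of_pow_eq_one hσζ.pow_eq_one
  have hi0 : (i : ZMod q) ≠ 0 := by
    intro h0
    rw [ZMod.natCast_eq_zero_iff] at h0
    obtain ⟨k, rfl⟩ := h0
    rw [pow_mul, hζ.pow_eq_one, one_pow] at hi'
    exact hσζ.ne_one hq.one_lt hi'.symm
  haveI : Fact q.Prime := ⟨hq⟩
  refine ⟨Units.mk0 (i : ZMod q) hi0, ?_⟩
  show σ _ = _ ^ ((i : ZMod q)).val
  rw [ZMod.val_natCast, Nat.mod_eq_of_lt hi, hi']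

open Classical in
/-- The mod `q` cyclotomic character (junk value `1` if `q` is not prime). -/
def cyc (q : ℕ) [NeZero q] (σ : GQ) : (ZMod q)ˣ :=
  if h : ∃ e : (ZMod q)ˣ, Ops.W.ActsBy σ e then h.choose else 1

theorem actsBy_cyc {q : ℕ} [NeZero q] (hq : q.Prime) (σ : GQ) : Ops.W.ActsBy σ (cyc q σ) := by
  rw [cyc, dif_pos (exists_actsBy hq σ)]
  exact (exists_actsBy hq σ).choose_spec

variable {q M : ℕ} [NeZero q] [NeZero M]

/-- **The Atkin-Lehner datum at level `F1Q q M`**: `σ w = w ⟨cyc σ⟩⁻¹ σ`. -/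
def wDat (hq : q.Prime) (hc : Nat.Coprime q M) : Triv.WDat q M where
  w := Ops.w hc
  e := fun σ => (cyc q σ)⁻¹
  w_dia := Ops.w_dia hc
  galF_w := fun σ u => Ops.galF_w hq hc (actsBy_cyc hq σ) u

/-- **The Atkin-Lehner datum at level `Γ₀(q M)`.** -/
def w0Dat (hq : q.Prime) (hc : Nat.Coprime q M) : Triv.W0Dat (wDat hq hc) where
  w0 := Ops.w0 hc
  galF_w0 := fun σ u => Ops.galF_w0 hq hc σ u
  compat := fun u => Ops.w_alphaB hc u

theorem wDat_w (hq : q.Prime) (hc : Nat.Coprime q M) : (wDat hq hc).w = Ops.w hc := rfl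

theorem wDat_e (hq : q.Prime) (hc : Nat.Coprime q M) (σ : GQ) :
    (wDat hq hc).e σ = (cyc q σ)⁻¹ := rfl

theorem w0Dat_w0 (hq : q.Prime) (hc : Nat.Coprime q M) : (w0Dat hq hc).w0 = Ops.w0 hc := rfl

end Fermat.Agent.S43.Inst

end
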