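/-
Row 37 (S43), block GLUE, LAYER 3 = THE CONCRETE INSTANCE (chief helper48; layers 1-2 and `Glue/Conc/Defs.lean`: helper144).
DEFINITIONS ONLY.

`F1 = F1Q q M`, `F0 = modularFunctionFieldFull (q * M)`, exponent `nn p e = p ^ e * p` (`= p ^ (e + 1)` by `rfl`),
`V = V1 q M (nn p e) = W1 F1 (nn p e)`, `V₀ = V0 q M (nn p e)`, `Vb = V1 q M p`.
Localising families: `Glue.Conc.t1 q M Wm p n`, `Glue.Conc.t0 q M Wm p n` (index `Idx Wm (q * M * p) ⊕ (ZMod q)ˣ`).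

* `Base P M q` : everything which is chosen BEFORE `σ, φ`: the model `Wm`, `e, κ`, the place `A ∣ q`, the non Eisenstein prime `i₀`;
* `Ctx P M q`  : `Base` + `σ ∈ I_A`, a Frobenius `φ` fixing `ζ_q`, with the properties delivered by TAME;
* the operators of `Glue.Raw`, `Glue.RawRed` as functions of a `Ctx` (all are `abbrev`s of the primitive objects of the blocks):
    `g = ⟨d₀⟩`, `d₀ = cyc q σ`  (so that `S x - g x ∈ K'` is `Triv.t3`),   `up/dn = Ops.Pi.up/dn`,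
    `S F S₀ F₀ = E.rho`,  `U = (Ops.U.uOp1 q M).UW`,  `U₀ = (Ops.U.uOp0 (q * M) q _).UW`,  `Ut = Triv.UtW (wDat ..) ..`,
    `K = Triv.Ki`, `K' = Triv.Kz (wDat ..)`, `Y₀ = Triv.Ki0`,  `π = Exp.dn' (p ^ e) p`.
-/
import Fermat.Agent.S43.Inst.Cyc
import Fermat.Agent.S43.Glue.Conc.Defs
import Fermat.Agent.S43.Ops.U.Inst
import Fermat.Agent.S43.Exp.Lvl
import Fermat.Agent.S43.Dict.Contract

set_option autoImplicit false

noncomputable section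

namespace Fermat.Agent.S43.Inst

open ModularCurve AlgebraicCurve
open Fermat.Agent.S24 Fermat.Agent.S24.B Fermat.Agent.S48.BB Fermat.Agent.S48.BB.E
open Fermat.Agent.GAL.E (GQ)
open Fermat.Agent.S43.Glue.Conc

/-- the exponent `p ^ (e + 1)` -/
abbrev nn (p e : ℕ) : ℕ := p ^ e * p

/-- `U_q` at level `F1Q q M` -/
abbrev X1 (q M : ℕ) [NeZero q] [NeZero M] : Ops.U.UOp (F1Q q M) q := Ops.U.uOp1 q M

/-- `U_q` at level `Γ₀(q M)` -/
abbrev X0 (q M : ℕ) [NeZero q] [NeZero M] : Ops.U.UOp (modularFunctionFieldFull (q * M)) q :=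
  Ops.U.uOp0 (q * M) q (Dvd.intro M rfl)

/-- **The choices made before `σ`, `φ`.** -/
structure Base (P : FreyPackage) (M q : ℕ) where
  hyp : Hyp P M q
  /-- the integral model of the Frey curve whose `a_ℓ` define `m` (DICT: `NodeEigen`) -/
  Wm : WeierstrassCurve ℤ
  hW : Wm.IsIntegralModelOf P.freyCurve
  heig : ∃ x : GAL.E.W (M * q) P.p, x ≠ 0 ∧ S44.V.IsEig P Wm (M * q) (M * q * P.p) x
  /-- `q = 1 + κ p ^ e`, `p ∤ κ` -/
  e : ℕ
  κ : ℕ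
  hqe : q = 1 + κ * P.p ^ e
  hκ : ¬ P.p ∣ κ
  /-- a place of `ℚ̄` above `q` -/
  A : ValuationSubring Kbar
  hA : A.LiesOverPrime q
  /-- a non Eisenstein prime -/
  i₀ : Idx Wm (q * M * P.p)
  hi₀ : IsCoprime (Wm.apOfModel i₀.1 - (i₀.1 : ℤ) - 1) (P.p : ℤ)

namespace Base

variable {P : FreyPackage} {M q : ℕ} (B : Base P M q)

include B

theorem hq : q.Prime := B.hyp.hq

theorem hM : M ≠ 0 := fun h => by
  have := B.hyp.cond.pos
  rw [h, zero_mul] at this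
  exact lt_irrefl 0 this

theorem hqM : ¬ q ∣ M := by
  rintro ⟨k, rfl⟩
  exact B.hyp.cond.sq_not_dvd B.hyp.hq ⟨k, by ring⟩

theorem hc : Nat.Coprime q M := (Nat.Prime.coprime_iff_not_dvd B.hq).2 B.hqM

omit B

/-- the exponent -/
abbrev n : ℕ := nn P.p B.e

/-- `c = a_ℓ - ℓ - 1` for `ℓ = i₀` -/
abbrev c : ℤ := B.Wm.apOfModel B.i₀.1 - (B.i₀.1 : ℤ) - 1

/-- `(q - 1) / 2 = p ^ e * h` -/
abbrev h : ℕ := B.κ / 2

variable [NeZero q] [NeZero M]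

/-- the localising family at level `H`, exponent `m` -/
abbrev t (m : ℕ) : Idx B.Wm (q * M * P.p) ⊕ (ZMod q)ˣ → V1 q M m →+ V1 q M m := t1 q M B.Wm P.p m

/-- the localising family at level `Γ₀`, exponent `m` -/
abbrev t₀ (m : ℕ) : Idx B.Wm (q * M * P.p) ⊕ (ZMod q)ˣ → V0 q M m →+ V0 q M m := t0 q M B.Wm P.p m

/-- the Atkin-Lehner data -/
abbrev Wd : Triv.WDat q M := wDat B.hq B.hc

abbrev W0d : Triv.W0Dat B.Wd := w0Dat B.hq B.hc

/-- `π^*`, `π_*` -/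
abbrev up (_B : Base P M q) (m : ℕ) : V0 q M m →+ V1 q M m := Ops.Pi.up q M m

abbrev dn (_B : Base P M q) (m : ℕ) : V1 q M m →+ V0 q M m := Ops.Pi.dn q M m

/-- `U_q`, `U_q^t = w⁻¹ U_q w` at level `H`, `U_q` at level `Γ₀` -/
abbrev U (_B : Base P M q) (m : ℕ) : V1 q M m →+ V1 q M m := (X1 q M).UW m

abbrev Ut (m : ℕ) : V1 q M m →+ V1 q M m := Triv.UtW B.Wd (X1 q M) m

abbrev U₀ (_B : Base P M q) (m : ℕ) : V0 q M m →+ V0 q M m := (X0 q M).UW m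

/-- `K_∞`, `K_0` at level `H`, `K_∞` at level `Γ₀` -/
abbrev K (m : ℕ) : AddSubgroup (V1 q M m) := Triv.Ki q M B.A m

abbrev K' (m : ℕ) : AddSubgroup (V1 q M m) := Triv.Kz B.Wd B.A m

abbrev Y₀ (m : ℕ) : AddSubgroup (V0 q M m) := Triv.Ki0 q M B.A m

/-- the reduction `W1 F1 (p ^ e * p) → W1 F1 p` -/
abbrev π : V1 q M B.n →+ V1 q M P.p := Exp.dn' (F := FB (F1Q q M)) (P.p ^ B.e) P.p

end Base

/-- **The full context**: `Base` + the two Galois elements delivered by TAME. -/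
structure Ctx (P : FreyPackage) (M q : ℕ) [NeZero q] [NeZero M] extends Base P M q where
  /-- a generator of the tame inertia -/
  σ : GQ
  hσ : σ ∈ A.inertiaSubgroupIn ℚ
  /-- a Frobenius fixing `ζ_q` -/
  φ : GQ
  hφ : A.IsFrobeniusAt φ q
  hφ1 : cyc q φ = 1
  /-- `cyc σ` generates `(ℤ/q)ˣ` -/
  hgen : ∀ d : (ZMod q)ˣ, d ∈ Subgroup.zpowers (cyc q σ)
  /-- `φ σ φ⁻¹ = σ ^ q` on `W_H(n)_m` -/
  tame : ∀ x ∈ LocZ.loc (A := V1 q M (nn P.p e)) (t1 q M Wm P.p (nn P.p e)),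
    r1 q M (nn P.p e) φ (r1 q M (nn P.p e) σ x) =
      ((r1 q M (nn P.p e) σ)^[q]) (r1 q M (nn P.p e) φ x)
  /-- the inertia group acts on `W_0(n)_m` through the powers of `σ` -/
  cyc₀ : ∀ τ ∈ A.inertiaSubgroupIn ℚ, ∃ j : ℕ,
    ∀ y ∈ LocZ.loc (A := V0 q M (nn P.p e)) (t0 q M Wm P.p (nn P.p e)),
      r0 q M (nn P.p e) τ y = ((r0 q M (nn P.p e) σ)^[j]) y

namespace Ctx

variable {P : FreyPackage} {M q : ℕ} [NeZero q] [NeZero M] (C : Ctx P M q)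

/-- the diamond attached to `σ` -/
abbrev d₀ : (ZMod q)ˣ := cyc q C.σ

/-- `g = ⟨d₀⟩` -/
abbrev g (m : ℕ) : V1 q M m →+ V1 q M m := dW q M m C.d₀

abbrev S (m : ℕ) : V1 q M m →+ V1 q M m := r1 q M m C.σ

abbrev F (m : ℕ) : V1 q M m →+ V1 q M m := r1 q M m C.φ

abbrev S₀ (m : ℕ) : V0 q M m →+ V0 q M m := r0 q M m C.σ

abbrev F₀ (m : ℕ) : V0 q M m →+ V0 q M m := r0 q M m C.φ

end Ctx

end Fermat.Agent.S43.Inst

end
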