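/-
Row 37 (S43), GLUE layer 3, group F (helper194).  THE FIELDS `γ`, `γ'` OF `Glue.Raw` AT THE CONCRETE LEVELS
`V = W1 (F1Q q M) n`, `V₀ = W1 (modularFunctionFieldFull (q * M)) n`, `up = piUp (pairD q M) n = Ops.Pi.up q M n`,
`K = Triv.Ki q M A n`, `K' = Triv.Kz Wd A n`, `Y₀ = Triv.Ki0 q M A n`.

* `eta_mem_Ki0` : `π^* y ∈ K_∞  ⟹ (T_l - l - 1) y ∈ K_∞^0`          (C4, helper102's direct route);
* `eta_mem_Kz0` : `π^* y ∈ K_0  ⟹ (T_l - l - 1) y ∈ K_0^0`;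
* `gamma`       : `y ∈ loc t₀`, `π^* y ∈ K_∞ ⟹ y ∈ K_∞^0`;
* `gammaZ`      : `y ∈ loc t₀`, `π^* y ∈ K_0 ⟹ y ∈ K_0^0`;
* `gamma'`      : `y ∈ loc t₀`, `π^* y ∈ K_0 ⟹ y ∈ K_∞^0`, given (L0) `K_0^0 ∩ loc t₀ ≤ K_∞^0`.
The family `t₀` is ARBITRARY; all we use is an index `i₀` and `c : ℤ` prime to `p` with `t₀ i₀ + c = T_l - l - 1`
(the fields `i₀`, `c`, `hc` of `Glue.FreeRaw`).  `H0` is ANY `HeckeOp1` of level `Γ₀(q M)` with trivial diamond.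
-/
import Fermat.Agent.S43.Triv.Contract
import Fermat.Agent.S43.C4.Direct
import Fermat.Agent.S43.C4.Main
import Fermat.Agent.S43.C4.Raw

set_option autoImplicit false

noncomputable section

namespace Fermat.Agent.S43.Inst

open ModularCurve AlgebraicCurve CongruenceSubgroup Fermat.Agent.S24 Fermat.Agent.S24.B
  Fermat.Agent.S48.BB Fermat.Agent.S48.BB.M Fermat.Agent.S48.BB.E Fermat.Agent.S48.BB.T
  Fermat.Agent.S43.Ops.Pi Fermat.Agent.S43.Triv Fermat.Agent.S43.LocZ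
open Fermat.Agent.GAL.E (GQ)

variable {q M : ℕ} [NeZero q] [NeZero M] {A : ValuationSubring Kbar} {n : ℕ} [NeZero n]
  {l : ℕ} [NeZero l]

theorem not_dvd_card_units (hq : q.Prime) : ¬ q ∣ Fintype.card (ZMod q)ˣ := by
  haveI : Fact q.Prime := ⟨hq⟩
  rw [ZMod.card_units]
  intro h
  have h1 := Nat.le_of_dvd (by have := hq.two_le; omega) h
  have := hq.two_le
  omega

/-- **C4 at `∞`**, concrete levels. -/
theorem eta_mem_Ki0 (hq : q.Prime) (hA : A.LiesOverPrime q) (hl : l.Prime) (hlN : ¬ l ∣ q * M)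
    (H0 : HeckeOp1 (modularFunctionFieldFull (q * M)) l) (hD0 : H0.D = 1)
    (y : W1 (modularFunctionFieldFull (q * M)) n) (hy : piUp (pairD q M) n y ∈ Ki q M A n) :
    H0.TW n y - (l + 1) • y ∈ Ki0 q M A n :=
  C4.Direct.isKinf_TW_sub (pairD q M) (diaD q M) H0 (Ops.heckeOpT q M hl hlN) (unitL hl hlN)
    (intGen0 q M) (intGen1 q M) hq hA (not_dvd_card_units hq) dia_fix
    (fun y hy => Ops.exists_alphaB_eq_of_dia y hy) (fun u => by rw [hD0]; rfl)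
    (fun y => by rw [heckeOpT_D_eq_dia hl hlN]) (fun d y => (T_dia hl hlN d y).symm) y hy

/-- **C4 at `0`**, concrete levels. -/
theorem eta_mem_Kz0 (hq : q.Prime) (hA : A.LiesOverPrime q) (hl : l.Prime) (hlN : ¬ l ∣ q * M)
    (H0 : HeckeOp1 (modularFunctionFieldFull (q * M)) l) (hD0 : H0.D = 1)
    {Wd : WDat q M} (W0d : W0Dat Wd)
    (hwT : ∀ y : W1 (modularFunctionFieldFull (q * M)) n,
      W0d.toWTw.wW n (H0.TW n y) = H0.TW n (W0d.toWTw.wW n y))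
    (y : W1 (modularFunctionFieldFull (q * M)) n) (hy : piUp (pairD q M) n y ∈ Kz Wd A n) :
    H0.TW n y - (l + 1) • y ∈ Kz0 W0d A n :=
  C4.Direct.isK0_TW_sub (pairD q M) W0d.toWTw Wd.toWTw H0 (Ops.heckeOpT q M hl hlN) (unitL hl hlN)
    (intGen0 q M) (intGen1 q M) hq hA (not_dvd_card_units hq) dia_fix
    (fun y hy => Ops.exists_alphaB_eq_of_dia y hy) (fun u => by rw [hD0]; rfl)
    (fun y => by rw [heckeOpT_D_eq_dia hl hlN]; rfl) (fun d y => (T_dia hl hlN d y).symm)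
    W0d.compat hwT y hy

/-- `K_∞^0` is stable under `T_l`. -/
theorem Ki0_T (hq : q.Prime) (hA : A.LiesOverPrime q)
    (H0 : HeckeOp1 (modularFunctionFieldFull (q * M)) l) (hD0 : H0.D = 1)
    {y : W1 (modularFunctionFieldFull (q * M)) n} (hy : y ∈ Ki0 q M A n) :
    H0.TW n y ∈ Ki0 q M A n :=
  C4.isKinf_TW (intGen0 q M) hq hA H0 hD0 hy

/-- `K_0^0` is stable under `T_l`. -/
theorem Kz0_T (hq : q.Prime) (hA : A.LiesOverPrime q)
    (H0 : HeckeOp1 (modularFunctionFieldFull (q * M)) l) (hD0 : H0.D = 1)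
    {Wd : WDat q M} (W0d : W0Dat Wd)
    (hwT : ∀ y : W1 (modularFunctionFieldFull (q * M)) n,
      W0d.toWTw.wW n (H0.TW n y) = H0.TW n (W0d.toWTw.wW n y))
    {y : W1 (modularFunctionFieldFull (q * M)) n} (hy : y ∈ Kz0 W0d A n) :
    H0.TW n y ∈ Kz0 W0d A n := by
  show W0d.toWTw.wW n (H0.TW n y) ∈ Ki0 q M A n
  rw [hwT]
  exact Ki0_T hq hA H0 hD0 hy

section Loc

variable {ι : Type*} {p k : ℕ}
  (t₀ : ι → W1 (modularFunctionFieldFull (q * M)) n →+ W1 (modularFunctionFieldFull (q * M)) n)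
  (i₀ : ι) {c : ℤ}

/-- a subgroup stable under `T_l` is stable under `t₀ i₀ = T_l - l - 1 - c`. -/
theorem stable_t₀ (H0 : HeckeOp1 (modularFunctionFieldFull (q * M)) l)
    (hη : ∀ y, t₀ i₀ y + c • y = H0.TW n y - (l + 1) • y)
    (Y : AddSubgroup (W1 (modularFunctionFieldFull (q * M)) n)) (hY : ∀ y ∈ Y, H0.TW n y ∈ Y) :
    ∀ y ∈ Y, t₀ i₀ y ∈ Y := by
  intro y hy
  have e : t₀ i₀ y = H0.TW n y - (l + 1) • y - c • y := by
    rw [← hη y]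
    exact (add_sub_cancel_right (G := W1 (modularFunctionFieldFull (q * M)) n) _ _).symm
  rw [e]
  exact Y.sub_mem (Y.sub_mem (hY y hy) (Y.nsmul_mem hy _)) (Y.zsmul_mem hy _)

/-- **Field `γ` of `Glue.Raw`.** -/
theorem gamma (hq : q.Prime) (hA : A.LiesOverPrime q) (hl : l.Prime) (hlN : ¬ l ∣ q * M)
    (H0 : HeckeOp1 (modularFunctionFieldFull (q * M)) l) (hD0 : H0.D = 1)
    (hn : n = p ^ k) (hc : IsCoprime c (p : ℤ))
    (hη : ∀ y, t₀ i₀ y + c • y = H0.TW n y - (l + 1) • y) :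
    ∀ y ∈ loc t₀, piUp (pairD q M) n y ∈ Ki q M A n → y ∈ Ki0 q M A n := by
  intro y hy hK
  refine C4.mem_of_add_zsmul_mem (p := p) (k := k) (fun x => by rw [← hn]; exact nsmul_W x) hc i₀
    (Ki0 q M A n) (stable_t₀ t₀ i₀ H0 hη _ fun y hy => Ki0_T hq hA H0 hD0 hy) hy ?_
  rw [hη]
  exact eta_mem_Ki0 hq hA hl hlN H0 hD0 y hK

/-- `y ∈ loc t₀`, `π^* y ∈ K_0 ⟹ y ∈ K_0^0`. -/
theorem gammaZ (hq : q.Prime) (hA : A.LiesOverPrime q) (hl : l.Prime) (hlN : ¬ l ∣ q * M)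
    (H0 : HeckeOp1 (modularFunctionFieldFull (q * M)) l) (hD0 : H0.D = 1)
    {Wd : WDat q M} (W0d : W0Dat Wd)
    (hwT : ∀ y : W1 (modularFunctionFieldFull (q * M)) n,
      W0d.toWTw.wW n (H0.TW n y) = H0.TW n (W0d.toWTw.wW n y))
    (hn : n = p ^ k) (hc : IsCoprime c (p : ℤ))
    (hη : ∀ y, t₀ i₀ y + c • y = H0.TW n y - (l + 1) • y) :
    ∀ y ∈ loc t₀, piUp (pairD q M) n y ∈ Kz Wd A n → y ∈ Kz0 W0d A n := by
  intro y hy hK
  refine C4.mem_of_add_zsmul_mem (p := p) (k := k) (fun x => by rw [← hn]; exact nsmul_W x) hc i₀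
    (Kz0 W0d A n) (stable_t₀ t₀ i₀ H0 hη _ fun y hy => Kz0_T hq hA H0 hD0 W0d hwT hy) hy ?_
  rw [hη]
  exact eta_mem_Kz0 hq hA hl hlN H0 hD0 W0d hwT y hK

/-- **Field `γ'` of `Glue.Raw`**; `hL0` = (L0) `K_0^0 = K_∞^0` on the `m`-part (`L0.Abs.mem_of_w_mem`). -/
theorem gamma' (hq : q.Prime) (hA : A.LiesOverPrime q) (hl : l.Prime) (hlN : ¬ l ∣ q * M)
    (H0 : HeckeOp1 (modularFunctionFieldFull (q * M)) l) (hD0 : H0.D = 1)
    {Wd : WDat q M} (W0d : W0Dat Wd)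
    (hwT : ∀ y : W1 (modularFunctionFieldFull (q * M)) n,
      W0d.toWTw.wW n (H0.TW n y) = H0.TW n (W0d.toWTw.wW n y))
    (hn : n = p ^ k) (hc : IsCoprime c (p : ℤ))
    (hη : ∀ y, t₀ i₀ y + c • y = H0.TW n y - (l + 1) • y)
    (hL0 : ∀ y ∈ loc t₀, y ∈ Kz0 W0d A n → y ∈ Ki0 q M A n) :
    ∀ y ∈ loc t₀, piUp (pairD q M) n y ∈ Kz Wd A n → y ∈ Ki0 q M A n :=
  fun y hy hK => hL0 y hy (gammaZ t₀ i₀ hq hA hl hlN H0 hD0 W0d hwT hn hc hη y hy hK)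

end Loc

end Fermat.Agent.S43.Inst

end
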