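/-
Row 37 (S43), block GLUE, LAYER 3 (chief helper48).  THE FIELDS OF `Glue.FreeRaw`, `Glue.Raw`, `Glue.RawRed` FOR THE CONCRETE OBJECTS,
GROUPED BY OWNER (instruction #10964 of helper74).  Named `Prop`-structures only; every `abbrev` of `Inst/Defs.lean` unfolds by `rfl` to
the primitive objects of the blocks, so a theorem stated on the primitive objects closes the field by `exact`.

  group A : `FA B d` (formal part of `FreeRaw`), `OA C` (OPS part of `Raw`)          group B : `OB C` (`w`-fields, TRIV)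
  group C : `FC B d` (kerup, inv, coker)                                             group D : `OD C` (L0)
  group E : `NodeCtx` (σ, φ)                                                         group F : `OF C` (γ, γ')
  group G : `OG C` (E0)                group H : `OH C` (Z1, Z2), `RH C` (`RawRed`)  group I : `OI C` (ne), `NodeBase`
`n = C.n = p ^ e * p`;  `loc` = `LocZ.loc`.
-/
import Fermat.Agent.S43.Inst.Defs

set_option autoImplicit false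

noncomputable section

namespace Fermat.Agent.S43.Inst

open ModularCurve AlgebraicCurve
open Fermat.Agent.S24 Fermat.Agent.S24.B Fermat.Agent.S48.BB Fermat.Agent.S48.BB.E
open Fermat.Agent.GAL.E (GQ)
open Fermat.Agent.S43.Glue.Conc Fermat.Agent.S43.LocZ

variable {P : FreyPackage} {M q : ℕ} [NeZero q] [NeZero M]

/-- **Group A, part 1**: the formal fields of `FreeRaw`, for ANY generator `d` of `(ℤ/q)ˣ`, any exponent `m`. -/
structure FA (B : Base P M q) (d : (ZMod q)ˣ) (m : ℕ) : Prop where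
  t_comm : ∀ i j x, B.t m i (B.t m j x) = B.t m j (B.t m i x)
  t₀_comm : ∀ i j y, B.t₀ m i (B.t₀ m j y) = B.t₀ m j (B.t₀ m i y)
  hh : ¬ P.p ∣ B.h
  g_pow : ∀ x, ((dW q M m d)^[P.p ^ B.e * B.h]) x = x
  g_t : ∀ i x, dW q M m d (B.t m i x) = B.t m i (dW q M m d x)
  dn_t : ∀ i x, B.dn m (B.t m i x) = B.t₀ m i (B.dn m x)
  up_t : ∀ i y, B.up m (B.t₀ m i y) = B.t m i (B.up m y)
  dn_g : ∀ x, B.dn m (dW q M m d x) = B.dn m x
  g_up : ∀ y, dW q M m d (B.up m y) = B.up m y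
  up_dn : ∀ x, B.up m (B.dn m x) = ∑ j ∈ Finset.range (P.p ^ B.e * B.h), ((dW q M m d)^[j]) x

/-- **Group C**: (KERUP), (INV), (COKER) at the exponent `n`. -/
structure FC (B : Base P M q) (d : (ZMod q)ˣ) : Prop where
  kerup : ∀ y, B.up B.n y = 0 → B.t₀ B.n (Sum.inl B.i₀) y + B.c • y = 0
  inv : ∀ x, dW q M B.n d x = x → ∃ y, B.t B.n (Sum.inl B.i₀) x + B.c • x = B.up B.n y
  coker : ∀ y, ∃ x, B.t₀ B.n (Sum.inl B.i₀) y + B.c • y = B.dn B.n x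

/-- **Group A, part 2**: Galois and `U_q` commute with everything; any exponent `m`, any `τ ∈ G_ℚ`. -/
structure OA (B : Base P M q) (m : ℕ) : Prop where
  r_t : ∀ (τ : GQ) i x, r1 q M m τ (B.t m i x) = B.t m i (r1 q M m τ x)
  r₀_t : ∀ (τ : GQ) i y, r0 q M m τ (B.t₀ m i y) = B.t₀ m i (r0 q M m τ y)
  U_t : ∀ i x, B.U m (B.t m i x) = B.t m i (B.U m x)
  U₀_t : ∀ i y, B.U₀ m (B.t₀ m i y) = B.t₀ m i (B.U₀ m y)
  d_U : ∀ (d : (ZMod q)ˣ) x, dW q M m d (B.U m x) = B.U m (dW q M m d x)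
  d_r : ∀ (d : (ZMod q)ˣ) (τ : GQ) x, dW q M m d (r1 q M m τ x) = r1 q M m τ (dW q M m d x)
  U_r : ∀ (τ : GQ) x, B.U m (r1 q M m τ x) = r1 q M m τ (B.U m x)
  dn_r : ∀ (τ : GQ) x, B.dn m (r1 q M m τ x) = r0 q M m τ (B.dn m x)
  up_r : ∀ (τ : GQ) y, B.up m (r0 q M m τ y) = r1 q M m τ (B.up m y)
  dn_U : ∀ x, B.dn m (B.U m x) = B.U₀ m (B.dn m x)

/-- **Group B**: the fields involving `w`; any exponent `m`. -/
structure OB (B : Base P M q) (m : ℕ) : Prop where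
  Ut_t : ∀ i x, B.Ut m (B.t m i x) = B.t m i (B.Ut m x)
  Ut_r : ∀ (τ : GQ) x, B.Ut m (r1 q M m τ x) = r1 q M m τ (B.Ut m x)

/-- **Group D**: L0, exponent `n`. -/
structure OD (C : Ctx P M q) : Prop where
  dn_Ut : ∀ x ∈ loc (C.t C.n), C.dn C.n (C.Ut C.n x) = C.U₀ C.n (C.dn C.n x)
  U₀_surj : ∀ y ∈ loc (C.t₀ C.n), ∃ z ∈ loc (C.t₀ C.n), C.U₀ C.n z = y
  dnK' : ∀ x ∈ loc (C.t C.n), x ∈ C.K' C.n → C.dn C.n x ∈ C.Y₀ C.n
  L0 : ∀ y ∈ loc (C.t₀ C.n), C.F₀ C.n y - C.U₀ C.n y ∈ C.Y₀ C.n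
  /-- `K_∞^0 ∩ W_0(n)_m` is fixed by the inertia group -/
  Y₀_fix : ∀ y ∈ loc (C.t₀ C.n), y ∈ C.Y₀ C.n → C.S₀ C.n y = y

/-- **Group F**: C4 (= INJ), exponent `n`. -/
structure OF (C : Ctx P M q) : Prop where
  γ : ∀ y ∈ loc (C.t₀ C.n), C.up C.n y ∈ C.K C.n → y ∈ C.Y₀ C.n
  γ' : ∀ y ∈ loc (C.t₀ C.n), C.up C.n y ∈ C.K' C.n → y ∈ C.Y₀ C.n

/-- **Group G**: E0, exponent `n`. -/
structure OG (C : Ctx P M q) : Prop where
  Y₀_of_fix : ∀ y ∈ loc (C.t₀ C.n), C.S₀ C.n y = y → y ∈ C.Y₀ C.n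
  Y₀_im : ∀ y ∈ loc (C.t₀ C.n), y ∈ C.Y₀ C.n → ∃ z ∈ loc (C.t₀ C.n), y = C.S₀ C.n z - z
  Y₀_pure : ∀ y ∈ loc (C.t₀ C.n), P.p ^ C.e • y ∈ C.Y₀ C.n →
    ∃ z ∈ loc (C.t₀ C.n), ∃ z' ∈ loc (C.t₀ C.n), z ∈ C.Y₀ C.n ∧ y = z + P.p • z'

/-- **Group H, part 1**: EXP at level `Γ₀`. -/
structure OH (B : Base P M q) : Prop where
  Z1 : ∀ y : V0 q M B.n, P.p ^ B.e • y = 0 → ∃ z, y = P.p • z
  Z2 : ∀ y : V0 q M B.n, P.p • y = 0 → ∃ z, y = P.p ^ B.e • z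

/-- **Group H, part 2**: the reduction `π = Exp.dn' (p ^ e) p`. -/
structure RH (B : Base P M q) : Prop where
  π_surj : Function.Surjective B.π
  ker_π : ∀ x, B.π x = 0 → ∃ y, x = P.p • y
  π_t : ∀ i x, B.π (B.t B.n i x) = B.t P.p i (B.π x)
  π_d : ∀ (d : (ZMod q)ˣ) x, B.π (dW q M B.n d x) = dW q M P.p d (B.π x)
  π_r : ∀ (τ : GQ) x, B.π (r1 q M B.n τ x) = r1 q M P.p τ (B.π x)
  π_U : ∀ x, B.π (B.U B.n x) = B.U P.p (B.π x)
  π_Ut : ∀ x, B.π (B.Ut B.n x) = B.Ut P.p (B.π x)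

/-- **Group I, part 1**: DICT. -/
structure OI (B : Base P M q) : Prop where
  ne : ∃ y : V0 q M B.n, y ∈ loc (B.t₀ B.n) ∧ y ≠ 0

/-- **Group I, part 2**: the choices before `σ`, `φ`. -/
def NodeBase : Prop := ∀ (P : FreyPackage) (M q : ℕ), Hyp P M q → Nonempty (Base P M q)

/-- **Group E**: `σ`, `φ` (TAME). -/
def NodeCtx : Prop :=
  ∀ (P : FreyPackage) (M q : ℕ) [NeZero q] [NeZero M] (B : Base P M q), ∃ C : Ctx P M q, C.toBase = B

end Fermat.Agent.S43.Inst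

end
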